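import Fermat.Agent.S59.NMP.H341.StepPCurve
import Fermat.Agent.S59.H563.Old

/-!
# S59, cell NMP, leaf STEP-P (helper341): `NMP.BoundStepPStatement`, unconditional

`boundStepP : NMP.BoundStepPStatement` = `boundStepP_of_old` applied to `H563.old563`
(`NM.OldStatement`, helper563 + helper63).
-/

set_option autoImplicit false

namespace Fermat.Agent.S59.NMP.H341

/-- **STEP-P**: `BettiBound N S a J ⇒ BettiBound (N p) S a ((a_p² − (p + 1)²) J)`. -/
theorem boundStepP : Fermat.Agent.S59.NMP.BoundStepPStatement :=
  boundStepP_of_old Fermat.Agent.S59.H563.old563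

end Fermat.Agent.S59.NMP.H341
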