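import Fermat.Agent.S59.NMP.SpecP
import Fermat.Agent.S59.H585.StepCore
import Fermat.Agent.S59.H202.HK2

/-!
# S59, cell NMP, leaf STEP-P (helper341): the step of the Betti bound at `p`

`boundStepP_core` : `BettiBound N S a J → BettiBound (N p) S a ((a_p² − (p + 1)²) J)` over a DVR
`𝒪` of characteristic `0` with `p ∈ 𝔪`, from

* `NM.OldStatement` (leaf OLD of cell NM, used at `q = p`, `S ∖ {p}`) and `NM.HK2Statement`
  (on main: `H202.hk2`): an eigenclass of level `N p` away from `S ∋ p` is `p`-old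
  (`oldP_of_old`);
* Ihara's lemma at `p` for the reduction of the system `a` (hypothesis `IharaAtP`; the curve
  case is `Fermat.Agent.S59.H341.ihara_eigen_torsion`).

`x' := (p + 1) r₁ x − a_p r₂ x`;  `B(x', r₁ w₁ + r₂ w₂) = −(a_p² − (p + 1)²) B(x, w₁)`.
-/

set_option autoImplicit false

open CongruenceSubgroup IsLocalRing
open scoped MatrixGroups

namespace Fermat.Agent.S59.NMP.H341

open Fermat.Agent.S59.NM Fermat.Agent.S41.Spec Fermat.Agent.S29.H642 ModularCurve.Period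
  Fermat.Agent.S59.H585

/-! ## 1. Eigenclasses and the degeneracy maps of the first stage -/

section Eigen

variable {R : Type} [CommRing R] {N q : ℕ}

/-- `r₁` maps eigenclasses of level `N` to eigenclasses of level `N q` (same `S`). -/
theorem isEigenclass_r₁P {S : Finset ℕ} {a : ℕ → R} {x : Additive (Gamma0 N) →+ R}
    (hx : IsEigenclass N S a x) : IsEigenclass (N * q) S a (r₁ N q x) :=
  ⟨isCuspidal_r₁585 hx.1, fun l _ hl hlS => by
    rw [heckeTransfer_r₁585, hx.2 l (not_dvd_of_not_dvd_mul585 hl) hlS, r₁_smul585]⟩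

/-- `r₂` maps eigenclasses of level `N` to eigenclasses of level `N q` (same `S`). -/
theorem isEigenclass_r₂P {S : Finset ℕ} {a : ℕ → R} {x : Additive (Gamma0 N) →+ R}
    (hx : IsEigenclass N S a x) : IsEigenclass (N * q) S a (r₂ N q x) :=
  ⟨isCuspidal_r₂585 hx.1, fun l _ hl hlS => by
    rw [heckeTransfer_r₂585, hx.2 l (not_dvd_of_not_dvd_mul585 hl) hlS, r₂_smul585]⟩

/-- Eigenclasses only depend on the eigenvalues outside `S`. -/
theorem isEigenclass_congrP {n : ℕ} {S : Finset ℕ} {a a' : ℕ → R}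
    (h : ∀ l, l.Prime → l ∉ S → a l = a' l) {x : Additive (Gamma0 n) →+ R}
    (hx : IsEigenclass n S a x) : IsEigenclass n S a' x :=
  ⟨hx.1, fun l hl hln hlS => by rw [hx.2 l hln hlS, h l hl.out hlS]⟩

/-- The class `x' = (p + 1) r₁ x − a_p r₂ x`. -/
def xiP (N p : ℕ) (ap : R) (x : Additive (Gamma0 N) →+ R) : Additive (Gamma0 (N * p)) →+ R :=
  ((p : R) + 1) • r₁ N p x - ap • r₂ N p x

theorem isEigenclass_xiP {S : Finset ℕ} {a : ℕ → R} (ap : R) {x : Additive (Gamma0 N) →+ R}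
    (hx : IsEigenclass N S a x) : IsEigenclass (N * q) S a (xiP N q ap x) :=
  isEigenclass_sub585 (isEigenclass_smul585 _ (isEigenclass_r₁P hx))
    (isEigenclass_smul585 _ (isEigenclass_r₂P hx))

theorem xiP_comp {R' : Type} [CommRing R'] (f : R →+* R') (ap : R)
    (x : Additive (Gamma0 N) →+ R) :
    f.toAddMonoidHom.comp (xiP N q ap x) = xiP N q (f ap) (f.toAddMonoidHom.comp x) := by
  refine AddMonoidHom.ext fun g => ?_
  show f (((q : R) + 1) * r₁ N q x g - ap * r₂ N q x g) =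
    ((q : R') + 1) * f (r₁ N q x g) - f ap * f (r₂ N q x g)
  simp only [map_add, map_sub, map_mul, map_natCast, map_one]

/-- `x' = r₁ ((p + 1) x) + r₂ (− a_p x)`. -/
theorem xiP_eq (ap : R) (x : Additive (Gamma0 N) →+ R) :
    xiP N q ap x = r₁ N q (((q : R) + 1) • x) + r₂ N q ((-ap) • x) := by
  refine AddMonoidHom.ext fun g => ?_
  show ((q : R) + 1) * r₁ N q x g - ap * r₂ N q x g =
    ((q : R) + 1) * r₁ N q x g + (-ap) * r₂ N q x g
  ring

end Eigen

/-! ## 2. The Gram computation -/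

section Gram

variable {R : Type} [CommRing R] {N p : ℕ}

/-- `t₁ (r₁ w₁ + r₂ w₂) = (p + 1) w₁ + a_p w₂` and `t₂ (r₁ w₁ + r₂ w₂) = a_p w₁ + (p + 1) w₂`
on `T_p`-eigenclasses. -/
theorem t_oldP (hN : N ≠ 0) [hp : Fact p.Prime] (hpN : ¬ p ∣ N) (ap : R)
    {w₁ w₂ : Additive (Gamma0 N) →+ R}
    (h₁ : heckeTransfer hpN w₁ = ap • w₁) (h₂ : heckeTransfer hpN w₂ = ap • w₂) :
    t₁ N p (r₁ N p w₁ + r₂ N p w₂) = ((p : R) + 1) • w₁ + ap • w₂ ∧
    t₂ N p (r₁ N p w₁ + r₂ N p w₂) = ap • w₁ + ((p : R) + 1) • w₂ := by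
  obtain ⟨-, -, -, -, -, -, hTR, hTRH, -⟩ := Fermat.Agent.S41.H281.hkStatement.{0}
  have f11 : ∀ w : Additive (Gamma0 N) →+ R, t₁ N p (r₁ N p w) = ((p : R) + 1) • w := by
    intro w
    rw [(hTR N p hN hp.out hpN R w).1, nsmul_eq_smul585]
    push_cast
    rfl
  have f22 : ∀ w : Additive (Gamma0 N) →+ R, t₂ N p (r₂ N p w) = ((p : R) + 1) • w := by
    intro w
    rw [(hTR N p hN hp.out hpN R w).2, nsmul_eq_smul585]
    push_cast
    rfl
  have f12 : ∀ w : Additive (Gamma0 N) →+ R, t₁ N p (r₂ N p w) = heckeTransfer hpN w :=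
    fun w => (hTRH N p hpN hN R w).1
  have f21 : ∀ w : Additive (Gamma0 N) →+ R, t₂ N p (r₁ N p w) = heckeTransfer hpN w :=
    fun w => (hTRH N p hpN hN R w).2
  constructor
  · rw [t₁_add585, f11, f12, h₂]
  · rw [t₂_add585, f21, f22, h₁]

variable [IsDomain R]

/-- **The Gram computation at `p`.** -/
theorem pairing_xiP_old (hN : N ≠ 0) [hp : Fact p.Prime] (hpN : ¬ p ∣ N) (ap : R)
    {x w₁ w₂ : Additive (Gamma0 N) →+ R} (hx : IsCuspidal x)
    (c₁ : IsCuspidal w₁) (c₂ : IsCuspidal w₂)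
    (h₁ : heckeTransfer hpN w₁ = ap • w₁) (h₂ : heckeTransfer hpN w₂ = ap • w₂) :
    maninPairing (Gamma0 (N * p)) (xiP N p ap x) (r₁ N p w₁ + r₂ N p w₂) =
      -(ap ^ 2 - ((p : R) + 1) ^ 2) * maninPairing (Gamma0 N) x w₁ := by
  have hNp : N * p ≠ 0 := Nat.mul_ne_zero hN hp.out.ne_zero
  have hFI := finiteIndex_Gamma0' hN
  have hFI' := finiteIndex_Gamma0' hNp
  have hneg := neg_one_mem_Gamma0' N
  have hneg' := neg_one_mem_Gamma0' (N * p)
  have a1 := (adj2 R N p hN hp.out).1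
  have hy : IsCuspidal (r₁ N p w₁ + r₂ N p w₂) :=
    isCuspidal_add585 (isCuspidal_r₁585 c₁) (isCuspidal_r₂585 c₂)
  have hr1 : IsCuspidal (r₁ N p x) := isCuspidal_r₁585 hx
  have hr2 : IsCuspidal (r₂ N p x) := isCuspidal_r₂585 hx
  obtain ⟨e1, e2⟩ := t_oldP hN hpN ap h₁ h₂
  have hsubL : ∀ {φ φ' ψ : Additive (Gamma0 (N * p)) →+ R}, IsCuspidal φ → IsCuspidal φ' →
      IsCuspidal ψ → maninPairing (Gamma0 (N * p)) (φ - φ') ψ =
        maninPairing (Gamma0 (N * p)) φ ψ - maninPairing (Gamma0 (N * p)) φ' ψ := by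
    intro φ φ' ψ h h' hψ
    have := maninPairing_add_left hneg' (isCuspidal_sub585 h h') h' hψ
    rw [sub_add_cancel] at this
    rw [this, add_sub_cancel_right]
  unfold xiP
  rw [hsubL (isCuspidal_smul585 _ hr1) (isCuspidal_smul585 _ hr2) hy,
    maninPairing_smul_left hneg' _ hr1 hy, maninPairing_smul_left hneg' _ hr2 hy,
    (a1 x _ hx hy).1, (a1 x _ hx hy).2, e1, e2,
    maninPairing_add_right hneg hx (isCuspidal_smul585 _ c₁) (isCuspidal_smul585 _ c₂),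
    maninPairing_add_right hneg hx (isCuspidal_smul585 _ c₁) (isCuspidal_smul585 _ c₂),
    maninPairing_smul_right hneg _ hx c₁, maninPairing_smul_right hneg _ hx c₂,
    maninPairing_smul_right hneg _ hx c₁, maninPairing_smul_right hneg _ hx c₂]
  ring

end Gram

/-! ## 3. Eigenclasses of level `N p` away from `S ∋ p` are `p`-old -/

section Old

variable {K : Type} [Field K] [CharZero K]

/-- **OLD at `p`** from the leaf OLD of cell NM (applied to `r₁' y` of level `N p²`, `q = p`,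
`S ∖ {p}`) and HK2: `y = r₁ w₁ + r₂ w₂` with `T_p`-eigenclasses `w_i` of level `N`. -/
theorem oldP_of_old (hOld : OldStatement) (hHK2 : HK2Statement) {N p : ℕ} (hN : N ≠ 0)
    [hp : Fact p.Prime] (hpN : ¬ p ∣ N) {S : Finset ℕ} (hpS : p ∈ S)
    (hNS : ∀ r : ℕ, r.Prime → r ∣ N → r ∈ S) {a : ℕ → K} (ap : K)
    {x₀ : Additive (Gamma0 N) →+ K} (hx₀ : x₀ ≠ 0) (hx₀e : IsEigenclass N S a x₀)
    (hx₀p : heckeTransfer hpN x₀ = ap • x₀)
    {y : Additive (Gamma0 (N * p)) →+ K} (hy : IsEigenclass (N * p) S a y) :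
    ∃ w₁ w₂ : Additive (Gamma0 N) →+ K, IsEigenclass N S a w₁ ∧ IsEigenclass N S a w₂ ∧
      heckeTransfer hpN w₁ = ap • w₁ ∧ heckeTransfer hpN w₂ = ap • w₂ ∧
      y = r₁ N p w₁ + r₂ N p w₂ := by
  classical
  have hpS' : p ∉ S.erase p := Finset.notMem_erase p S
  have hins : insert p (S.erase p) = S := Finset.insert_erase hpS
  have hNS' : ∀ r : ℕ, r.Prime → r ∣ N → r ∈ S.erase p := fun r hr hrN =>
    Finset.mem_erase.mpr ⟨fun h => hpN (h ▸ hrN), hNS r hr hrN⟩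
  have ha'p : Function.update a p ap p = ap := Function.update_self ..
  have ha'l : ∀ l, l ≠ p → Function.update a p ap l = a l :=
    fun l hl => Function.update_of_ne hl ..
  have hlS : ∀ l, l ∉ S → l ≠ p := fun l hl h => hl (h ▸ hpS)
  -- `x₀` is an eigenclass away from `S ∖ {p}`
  have hx₀' : IsEigenclass N (S.erase p) (Function.update a p ap) x₀ := by
    refine ⟨hx₀e.1, fun l _ hl hlS' => ?_⟩
    by_cases hlp : l = p
    · subst hlp
      rw [ha'p]
      exact hx₀p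
    · rw [ha'l l hlp]
      exact hx₀e.2 l hl (fun h => hlS' (Finset.mem_erase.mpr ⟨hlp, h⟩))
  -- `r₁' y` is an eigenclass of level `N p²`
  have hy' : IsEigenclass (N * p) (insert p (S.erase p)) (Function.update a p ap) y := by
    rw [hins]
    exact isEigenclass_congrP (fun l _ hl => (ha'l l (hlS l hl)).symm) hy
  have hY : IsEigenclass (N * p * p) (insert p (S.erase p)) (Function.update a p ap)
      (r₁ (N * p) p y) := isEigenclass_r₁P hy'
  obtain ⟨z₁, z₂, z₃, h₁, h₂, h₃, hyz⟩ := hOld K N p hN hp.out hpN (S.erase p) hpS' hNS'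
    (Function.update a p ap) ⟨x₀, hx₀, hx₀'⟩ _ hY
  have hk := hHK2 N p hpN hN K
  have hT₃ : heckeTransfer hpN z₃ = ap • z₃ := by
    have := h₃.2 p hpN hpS'
    rwa [ha'p] at this
  -- apply `t₁'`
  have key : (p : K) • y = (p : K) • r₁ N p z₁ + (p : K) • r₂ N p z₂ +
      (r₂ N p (ap • z₃) - r₁ N p z₃) := by
    have e := congrArg (t₁ (N * p) p) hyz
    rw [t₁_add585, t₁_add585, (hk.2 y).1, P₁, P₂, P₃, (hk.2 _).1, (hk.2 _).1, (hk.1 z₃).2.1,
      hT₃, nsmul_eq_smul585, nsmul_eq_smul585, nsmul_eq_smul585] at e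
    exact e
  have hp0 : (p : K) ≠ 0 := Nat.cast_ne_zero.mpr hp.out.ne_zero
  have hw₁' : IsEigenclass N (S.erase p) (Function.update a p ap) (z₁ - (p : K)⁻¹ • z₃) :=
    isEigenclass_sub585 h₁ (isEigenclass_smul585 _ h₃)
  have hw₂' : IsEigenclass N (S.erase p) (Function.update a p ap)
      (z₂ + ((p : K)⁻¹ * ap) • z₃) :=
    isEigenclass_add585 h₂ (isEigenclass_smul585 _ h₃)
  have hback : ∀ {w : Additive (Gamma0 N) →+ K},
      IsEigenclass N (S.erase p) (Function.update a p ap) w → IsEigenclass N S a w := fun hw =>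
    isEigenclass_congrP (fun l _ hl => ha'l l (hlS l hl))
      (isEigenclass_mono585 (Finset.erase_subset p S) hw)
  have hTp : ∀ {w : Additive (Gamma0 N) →+ K},
      IsEigenclass N (S.erase p) (Function.update a p ap) w →
        heckeTransfer hpN w = ap • w := fun hw => by
    have := hw.2 p hpN hpS'
    rwa [ha'p] at this
  refine ⟨_, _, hback hw₁', hback hw₂', hTp hw₁', hTp hw₂', ?_⟩
  refine AddMonoidHom.ext fun g => ?_
  have hg := DFunLike.congr_fun key g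
  have hg' : (p : K) * y g = (p : K) * r₁ N p z₁ g + (p : K) * r₂ N p z₂ g +
      (ap * r₂ N p z₃ g - r₁ N p z₃ g) := hg
  show y g = (r₁ N p z₁ g - (p : K)⁻¹ * r₁ N p z₃ g) +
    (r₂ N p z₂ g + ((p : K)⁻¹ * ap) * r₂ N p z₃ g)
  field_simp
  linear_combination hg'

end Old

/-! ## 4. Saturation (Ihara's lemma at `p`) -/

section Core

variable {𝒪 : Type} [CommRing 𝒪] [IsDomain 𝒪] [IsDiscreteValuationRing 𝒪] [CharZero 𝒪]

/-- The Ihara hypothesis at `p` for the reduction of the system `a`: `r₁ ⊕ r₂` is injective on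
the eigenclasses of level `N` with coefficients in the residue field. -/
def IharaAtP (𝒪 : Type) [CommRing 𝒪] [IsLocalRing 𝒪] (N p : ℕ) (S : Finset ℕ) (a : ℕ → 𝒪) :
    Prop :=
  ∀ z₁ z₂ : Additive (Gamma0 N) →+ ResidueField 𝒪,
    IsEigenclass N S (fun l => residue 𝒪 (a l)) z₁ →
    IsEigenclass N S (fun l => residue 𝒪 (a l)) z₂ →
    r₁ N p z₁ + r₂ N p z₂ = 0 → z₁ = 0 ∧ z₂ = 0

theorem r_compP {A B : Type} [AddCommGroup A] [AddCommGroup B] (π : A →+ B) {N p : ℕ}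
    (z₁ z₂ : Additive (Gamma0 N) →+ A) :
    π.comp (r₁ N p z₁ + r₂ N p z₂) = r₁ N p (π.comp z₁) + r₂ N p (π.comp z₂) := by
  refine AddMonoidHom.ext fun g => ?_
  show π (r₁ N p z₁ g + r₂ N p z₂ g) = _
  rw [map_add]
  rfl

theorem r_smulP {R : Type} [CommRing R] (c : R) {N p : ℕ} (z₁ z₂ : Additive (Gamma0 N) →+ R) :
    r₁ N p (c • z₁) + r₂ N p (c • z₂) = c • (r₁ N p z₁ + r₂ N p z₂) := by
  refine AddMonoidHom.ext fun g => ?_
  show c * r₁ N p z₁ g + c * r₂ N p z₂ g = c * (r₁ N p z₁ g + r₂ N p z₂ g)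
  ring

/-- **Saturation at `p`**: if `r₁ z₁ + r₂ z₂` is integral, the eigenclasses `z_i` are integral
(Ihara's lemma at `p`). -/
theorem integral_of_oldP {N p : ℕ} (hN : N ≠ 0) {S : Finset ℕ} {a : ℕ → 𝒪}
    (hI : IharaAtP 𝒪 N p S a)
    {z₁ z₂ : Additive (Gamma0 N) →+ FractionRing 𝒪}
    (h₁ : IsEigenclass N S (fun l => algebraMap 𝒪 (FractionRing 𝒪) (a l)) z₁)
    (h₂ : IsEigenclass N S (fun l => algebraMap 𝒪 (FractionRing 𝒪) (a l)) z₂)
    {y : Additive (Gamma0 (N * p)) →+ 𝒪}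
    (hy : (algebraMap 𝒪 (FractionRing 𝒪)).toAddMonoidHom.comp y = r₁ N p z₁ + r₂ N p z₂) :
    ∃ w₁ w₂ : Additive (Gamma0 N) →+ 𝒪,
      (algebraMap 𝒪 (FractionRing 𝒪)).toAddMonoidHom.comp w₁ = z₁ ∧
      (algebraMap 𝒪 (FractionRing 𝒪)).toAddMonoidHom.comp w₂ = z₂ := by
  classical
  obtain ⟨ϖ, hϖ⟩ := IsDiscreteValuationRing.exists_irreducible 𝒪
  set K := FractionRing 𝒪
  set ι : 𝒪 →+* K := algebraMap 𝒪 K with hι
  have hinj : Function.Injective ι := IsFractionRing.injective 𝒪 K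
  have hϖK : ι ϖ ≠ 0 := fun h => hϖ.ne_zero (hinj (by rw [h, map_zero]))
  have key : ∀ m : ℕ, ∀ w₁ w₂ : Additive (Gamma0 N) →+ 𝒪,
      ι.toAddMonoidHom.comp w₁ = (ι ϖ ^ m) • z₁ → ι.toAddMonoidHom.comp w₂ = (ι ϖ ^ m) • z₂ →
      ∃ w₁ w₂ : Additive (Gamma0 N) →+ 𝒪,
        ι.toAddMonoidHom.comp w₁ = z₁ ∧ ι.toAddMonoidHom.comp w₂ = z₂ := by
    intro m
    induction m with
    | zero =>
      intro w₁ w₂ e₁ e₂
      rw [pow_zero, one_smul] at e₁ e₂
      exact ⟨w₁, w₂, e₁, e₂⟩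
    | succ m ih =>
      intro w₁ w₂ e₁ e₂
      have hw : ∀ {w : Additive (Gamma0 N) →+ 𝒪} {z : Additive (Gamma0 N) →+ K},
          IsEigenclass N S (fun l => ι (a l)) z →
          ι.toAddMonoidHom.comp w = (ι ϖ ^ (m + 1)) • z → IsEigenclass N S a w := by
        intro w z hz e
        apply isEigenclass_of_map585 ι hinj
        rw [e]
        exact isEigenclass_smul585 _ hz
      have hw₁ := hw h₁ e₁
      have hw₂ := hw h₂ e₂
      have hsum : r₁ N p w₁ + r₂ N p w₂ = (ϖ ^ (m + 1)) • y := by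
        refine AddMonoidHom.ext fun g => hinj ?_
        have h1 := DFunLike.congr_fun (r_compP ι.toAddMonoidHom (N := N) (p := p) w₁ w₂) g
        rw [e₁, e₂, r_smulP, ← hy] at h1
        have h2 : ι ((r₁ N p w₁ + r₂ N p w₂) g) = ι ϖ ^ (m + 1) * ι (y g) := h1
        rw [h2]
        show _ = ι (ϖ ^ (m + 1) * y g)
        rw [map_mul, map_pow]
      have hred : r₁ N p ((residue 𝒪).toAddMonoidHom.comp w₁) +
          r₂ N p ((residue 𝒪).toAddMonoidHom.comp w₂) = 0 := by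
        rw [← r_compP, hsum]
        refine AddMonoidHom.ext fun g => ?_
        show residue 𝒪 (ϖ ^ (m + 1) * y g) = 0
        rw [residue_eq_zero_iff, hϖ.maximalIdeal_eq, Ideal.mem_span_singleton]
        exact Dvd.dvd.mul_right (dvd_pow_self ϖ (Nat.succ_ne_zero m)) _
      obtain ⟨r₁0, r₂0⟩ := hI _ _ (isEigenclass_map585 (residue 𝒪) hw₁)
        (isEigenclass_map585 (residue 𝒪) hw₂) hred
      obtain ⟨w₁', hw₁'⟩ := exists_eq_smul_of_residue585 hϖ w₁ r₁0
      obtain ⟨w₂', hw₂'⟩ := exists_eq_smul_of_residue585 hϖ w₂ r₂0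
      have hdiv : ∀ {w w' : Additive (Gamma0 N) →+ 𝒪} {z : Additive (Gamma0 N) →+ K},
          w = ϖ • w' → ι.toAddMonoidHom.comp w = (ι ϖ ^ (m + 1)) • z →
          ι.toAddMonoidHom.comp w' = (ι ϖ ^ m) • z := by
        intro w w' z e e'
        refine AddMonoidHom.ext fun g => ?_
        have hg := DFunLike.congr_fun e' g
        have hg' : ι (w g) = ι ϖ ^ (m + 1) * z g := hg
        rw [e] at hg'
        have hg'' : ι (ϖ * w' g) = ι ϖ ^ (m + 1) * z g := hg'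
        rw [map_mul, pow_succ', mul_assoc] at hg''
        exact mul_left_cancel₀ hϖK hg''
      exact ih w₁' w₂' (hdiv hw₁' e₁) (hdiv hw₂' e₂)
  obtain ⟨m₁, v₁, e₁⟩ := exists_pow_smul_integral585 hN hϖ h₁.1
  obtain ⟨m₂, v₂, e₂⟩ := exists_pow_smul_integral585 hN hϖ h₂.1
  have hup : ∀ {m : ℕ} {v : Additive (Gamma0 N) →+ 𝒪} {z : Additive (Gamma0 N) →+ K} (k : ℕ),
      ι.toAddMonoidHom.comp v = (ι ϖ ^ m) • z →
      ι.toAddMonoidHom.comp ((ϖ ^ k) • v) = (ι ϖ ^ (m + k)) • z := by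
    intro m v z k e
    refine AddMonoidHom.ext fun g => ?_
    have hg : ι (v g) = ι ϖ ^ m * z g := DFunLike.congr_fun e g
    show ι (ϖ ^ k * v g) = ι ϖ ^ (m + k) * z g
    rw [map_mul, hg, map_pow, pow_add]
    ring
  refine key (m₁ + m₂) ((ϖ ^ m₂) • v₁) ((ϖ ^ m₁) • v₂) ?_ ?_
  · rw [hup m₂ e₁]
  · rw [hup m₁ e₂, add_comm]

/-- **STEP-P, core form.** -/
theorem boundStepP_core (hHK2 : HK2Statement) (hOld : OldStatement)
    {N p : ℕ} (hN : N ≠ 0) [hp : Fact p.Prime] (hpN : ¬ p ∣ N)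
    (hp𝒪 : (p : 𝒪) ∈ maximalIdeal 𝒪)
    {S : Finset ℕ} (hpS : p ∈ S) (hNS : ∀ r : ℕ, r.Prime → r ∣ N → r ∈ S)
    {a : ℕ → 𝒪} (hI : IharaAtP 𝒪 N p S a) (ap : 𝒪)
    (hap : ∀ x : Additive (Gamma0 N) →+ 𝒪, IsEigenclass N S a x →
      heckeTransfer hpN x = ap • x)
    {J : Ideal 𝒪} (hB : BettiBound N S a J) :
    BettiBound (N * p) S a (Ideal.span {ap ^ 2 - ((p : 𝒪) + 1) ^ 2} * J) := by
  classical
  obtain ⟨x, hx, hprim, hxJ⟩ := hB
  set K := FractionRing 𝒪
  set ι : 𝒪 →+* K := algebraMap 𝒪 K with hι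
  have hinj : Function.Injective ι := IsFractionRing.injective 𝒪 K
  refine ⟨xiP N p ap x, isEigenclass_xiP ap hx, ?_, ?_⟩
  · -- primitivity
    rw [isPrim_iff585] at hprim ⊢
    intro h0
    apply hprim
    rw [xiP_comp, xiP_eq] at h0
    have hxk := isEigenclass_map585 (residue 𝒪) hx
    have h1 := (hI _ _ (isEigenclass_smul585 _ hxk) (isEigenclass_smul585 _ hxk) h0).1
    have hpk : ((p : ℕ) : ResidueField 𝒪) = 0 := by
      rw [← map_natCast (residue 𝒪)]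
      exact (residue_eq_zero_iff _).mpr hp𝒪
    rw [hpk, zero_add, one_smul] at h1
    exact h1
  · intro y hy
    have hx0 : ι.toAddMonoidHom.comp x ≠ 0 := by
      intro h0
      obtain ⟨γ, hγ⟩ := hprim
      have : ι (x (Additive.ofMul γ)) = 0 := DFunLike.congr_fun h0 _
      rw [map_eq_zero_iff ι hinj] at this
      rw [this] at hγ
      exact not_isUnit_zero hγ
    have hxp : heckeTransfer hpN (ι.toAddMonoidHom.comp x) =
        ι ap • ι.toAddMonoidHom.comp x := by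
      rw [heckeTransfer_comp, hap x hx]
      refine AddMonoidHom.ext fun g => ?_
      show ι (ap * x g) = ι ap * ι (x g)
      rw [map_mul]
    obtain ⟨z₁, z₂, h₁, h₂, -, -, hyz⟩ := oldP_of_old hOld hHK2 hN hpN hpS hNS (ι ap) hx0
      (isEigenclass_map585 ι hx) hxp (isEigenclass_map585 ι hy)
    obtain ⟨w₁, w₂, e₁, e₂⟩ := integral_of_oldP hN hI h₁ h₂ hyz
    have hw₁ : IsEigenclass N S a w₁ := isEigenclass_of_map585 ι hinj (by rw [e₁]; exact h₁)
    have hw₂ : IsEigenclass N S a w₂ := isEigenclass_of_map585 ι hinj (by rw [e₂]; exact h₂)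
    have hyw : y = r₁ N p w₁ + r₂ N p w₂ := by
      refine AddMonoidHom.ext fun g => hinj ?_
      have h1 := DFunLike.congr_fun (r_compP ι.toAddMonoidHom (N := N) (p := p) w₁ w₂) g
      rw [e₁, e₂, ← hyz] at h1
      exact h1.symm
    rw [hyw, pairing_xiP_old hN hpN ap hx.1 hw₁.1 hw₂.1 (hap w₁ hw₁) (hap w₂ hw₂)]
    exact Ideal.mul_mem_mul (neg_mem (Ideal.subset_span rfl)) (hxJ w₁ hw₁)

end Core

end Fermat.Agent.S59.NMP.H341
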