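import Fermat.Agent.S59.NMP.H341.StepP
import Fermat.Agent.S59.H341.IharaAny
import Fermat.Agent.S59.H401.DictFrob
import Fermat.Agent.S54.FrobExists

/-!
# S59, cell NMP, leaf STEP-P (helper341): the curve case

* `eig_of_curve` : in the curve case the Frobenius system of `ρ̄ = E[p] ⊗ k` is `a_l(W)` at the
  good primes `l ≥ 5`, `l ∉ S`.
* `iharaAtP_of_curve` : Ihara's lemma at `p` (`IharaAtP`) in the curve case, from
  `Fermat.Agent.S59.H341.ihara_eigen_torsion_avoid`.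
* `boundStepP_of_old` : `NM.OldStatement → NMP.BoundStepPStatement`
  (HK2 is `H202.hk2`, on main).
-/

set_option autoImplicit false

open CongruenceSubgroup IsLocalRing Polynomial
open WeierstrassCurve WeierstrassCurve.Affine WeierstrassCurve.Affine.Point
open scoped MatrixGroups

namespace Fermat.Agent.S59.NMP.H341

open Fermat.Agent.S59.NM Fermat.Agent.S41.Spec Fermat.Agent.S29.H642 ModularCurve.Period
  Fermat.Agent.S59.H585 Fermat.Agent.S59.Arch

/-- In the curve case, the Frobenius traces of `ρ̄` at the good primes `l ≥ 5` outside `S` are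
the `a_l(W)`. -/
theorem eig_of_curve {p : ℕ} [Fact p.Prime] {k : Type} [Field k]
    (W : WeierstrassCurve ℤ) (hΔ : W.Δ ≠ 0) (hirr : W.ModRepIsIrreducible p)
    (hcard : Nat.card (Submodule.torsionBy ℤ
      ((W.map (Int.castRingHom ℚ))⁄(AlgebraicClosure ℚ)).Point p) = p ^ 2)
    (hker : GaloisFactorsThroughFiniteLevel
      (WeierstrassCurve.Affine.Point.galoisRepModuleEnd (K := AlgebraicClosure ℚ) ℚ
        (W.map (Int.castRingHom ℚ)) p))
    (ι : ZMod p →+* k) (S : Finset ℕ) (a : ℕ → k)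
    (ha : ∀ (l : ℕ), l.Prime → l ∉ S →
      ∀ B : ValuationSubring Fermat.Agent.S31.Qb, B.LiesOverPrime l →
        ∀ σ : Fermat.Agent.S31.GQ, B.IsFrobeniusAt σ l →
          LinearMap.charpoly ((curveResidual p W hcard hker ι).ρ σ) =
            X ^ 2 - C (a l) * X + C ((l : k)))
    {l : ℕ} (hl : l.Prime) (hlS : l ∉ S) (h5 : 5 ≤ l) (hgood : W.IsGoodPrimeFor l)
    (hlp : l ≠ p) : a l = ((W.apOfModel l : ℤ) : k) := by
  obtain ⟨A, σ, hA, hσ⟩ := Fermat.Agent.S54.exists_frobenius l hl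
  have h1 := ha l hl hlS A hA σ hσ
  have h2 := Fermat.Agent.S59.H401.dict_charpoly_good W hΔ p hirr hcard hker l hl h5 hgood hlp
    A hA σ hσ
  have h3 : LinearMap.charpoly ((curveResidual p W hcard hker ι).ρ σ) =
      (LinearMap.charpoly
        (((W.map (Int.castRingHom ℚ)).residualGaloisRepOf p hcard hker).ρ σ)).map ι := by
    let _ : Algebra (ZMod p) k := ι.toAlgebra
    exact LinearMap.charpoly_baseChange
      (((W.map (Int.castRingHom ℚ)).residualGaloisRepOf p hcard hker).ρ σ) k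
  rw [h3, h2] at h1
  have h4 := congrArg (fun P : k[X] => P.coeff 1) h1
  simp only [Polynomial.map_add, Polynomial.map_sub, Polynomial.map_mul, Polynomial.map_pow,
    Polynomial.map_X, map_intCast, map_natCast] at h4
  simp [coeff_X_pow, coeff_C] at h4
  exact h4.symm

/-- **Ihara's lemma at `p` in the curve case.** -/
theorem iharaAtP_of_curve {p : ℕ} [hp : Fact p.Prime] (hp2 : p ≠ 2)
    {𝒪 : Type} [CommRing 𝒪] [IsLocalRing 𝒪] (hp𝒪 : (p : 𝒪) ∈ maximalIdeal 𝒪)
    {ρbar : ResidualGaloisRep (ResidueField 𝒪)} (hc : CurveCase p ρbar)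
    {N : ℕ} (hN : N ≠ 0) (hpN : ¬ p ∣ N) {S : Finset ℕ}
    (hSN : ∀ r ∈ S, r ≠ p → r ∣ N) {a : ℕ → 𝒪} (ha : IsFrobSystem ρbar S a) :
    IharaAtP 𝒪 N p S a := by
  intro z₁ z₂ h₁ h₂ hker
  obtain ⟨-, W, hΔ, -, hirr, hcard, hkerW, ι, rfl⟩ := hc
  have : (W.map (Int.castRingHom ℚ)).IsElliptic := by
    refine ⟨isUnit_iff_ne_zero.mpr ?_⟩
    rw [WeierstrassCurve.map_Δ]
    simpa using hΔ
  have hW : W.IsIntegralModelOf (W.map (Int.castRingHom ℚ)) := ⟨1, one_smul _ _⟩
  have hpk : ((p : ℕ) : ResidueField 𝒪) = 0 := by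
    rw [← map_natCast (residue 𝒪)]
    exact (residue_eq_zero_iff _).mpr hp𝒪
  refine Fermat.Agent.S59.H341.ihara_eigen_torsion_avoid (W.map (Int.castRingHom ℚ)) W hW p N p
    hp.out hp2 hN hp.out hpN hirr (A := ResidueField 𝒪) (fun x => ?_) {2, 3} z₁ z₂ h₁.1 h₂.1 hker
    (fun l _ hl hlNp hgood hlp hlT => ?_)
  · rw [nsmul_eq_mul, hpk, zero_mul]
  · have hlprime : l.Prime := Fact.out
    have hlS : l ∉ S := by
      intro h
      exact hl (hSN l h hlp)
    have h5 : 5 ≤ l := by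
      simp only [Finset.mem_insert, Finset.mem_singleton, not_or] at hlT
      exact Fermat.Agent.S59.H401.dict_five_le hlprime hlT.1 hlT.2
    have he := eig_of_curve W hΔ hirr hcard hkerW ι S (fun l => residue 𝒪 (a l)) ha hlprime hlS
      h5 hgood hlp
    rw [h₁.2 l hl hlS]
    refine AddMonoidHom.ext fun g => ?_
    show residue 𝒪 (a l) * z₁ g = (W.apOfModel l : ℤ) • z₁ g
    rw [he, zsmul_eq_mul]

/-- **STEP-P** from the leaf OLD of cell NM. -/
theorem boundStepP_of_old (hOld : OldStatement) : BoundStepPStatement := by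
  intro p _ hp2 𝒪 _ _ _ _ _ _ hp𝒪 ρbar _ _ hc N hN hpN S hpS _ hNS hSN a ha ap hap J hB
  exact boundStepP_core Fermat.Agent.S59.H202.hk2 hOld hN hpN hp𝒪 hpS hNS
    (iharaAtP_of_curve hp2 hp𝒪 hc hN hpN hSN ha) ap hap hB

end Fermat.Agent.S59.NMP.H341
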